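import Fermat.Agent.GeneralBrauerSiegelGRH.Lower

/-!
# The generalised Brauer–Siegel theorem on the Riemann hypothesis

With the unconditional upper bound the lower bound makes `log κ / g` and `log (h R) / g` converge.
-/

set_option autoImplicit false
set_option linter.style.haveILetI false

noncomputable section

universe u

open NumberField InfinitePlace Module Filter Topology Set
open FA.HeckeBS FA.TsfasmanVladut FA.GeneralBrauerSiegel
open FA.DedekindHadamard (RHFor)
open scoped Real Classical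

namespace FA.GeneralBrauerSiegelGRH

variable {F : ℕ → Type u} [∀ i, Field (F i)] [∀ i, NumberField (F i)]
variable {φ : ℕ → ℝ} {φR φC : ℝ}

/-- The lower bound along the sequence. -/
theorem eventually_log_residue_ge (h : RatiosTend F φ φR φC)
    (hg : Tendsto (fun i => logGenus (F i)) atTop atTop) (hRH : ∀ i, RHFor (F i)) {ε : ℝ}
    (hε : 0 < ε) :
    ∀ᶠ i in atTop, (∑' q, φ q * lossTerm q - ε) * logGenus (F i) ≤
      Real.log (dedekindZeta_residue (F i)) := by
  obtain ⟨Q, hQ⟩ := ((summable_loss h hg).hasSum.tendsto_sum_nat.eventually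
    (eventually_gt_nhds (sub_lt_self _ (show 0 < ε / 4 by linarith)))).exists
  have hQ' : ∑' q, φ q * lossTerm q - ε / 4 < ∑ q ∈ Finset.Icc 2 Q, φ q * lossTerm q := by
    refine hQ.trans_le ?_
    rw [← Finset.sum_filter_ne_zero]
    refine Finset.sum_le_sum_of_subset_of_nonneg (fun q hq => ?_)
      fun q _ _ => mul_nonneg (h.nonneg q) (lossTerm_nonneg q)
    obtain ⟨hq1, hq2⟩ := Finset.mem_filter.1 hq
    refine Finset.mem_Icc.2 ⟨?_, (Finset.mem_range.1 hq1).le⟩
    by_contra h2
    push Not at h2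
    interval_cases q <;> simp [lossTerm] at hq2
  obtain ⟨C, -, hC⟩ := exists_log_residue_ge.{u} Q (show 0 < ε / 4 by linarith)
  have hlim := tendsto_finsetSum (Finset.Icc 2 Q) fun q _ =>
    (h.finite q).mul_const (lossTerm q)
  filter_upwards [hlim.eventually (eventually_gt_nhds hQ'), hg.eventually_ge_atTop (2 * C / ε),
    hg.eventually_gt_atTop 0] with i hi hi' hg0
  simp only [div_mul_eq_mul_div, ← Finset.sum_div] at hi
  rw [lt_div_iff₀ hg0] at hi
  rw [div_le_iff₀ hε] at hi'
  linarith [hC (F i) (hRH i)]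

/-- **`log κ / g` converges.** -/
theorem tendsto_log_residue (h : RatiosTend F φ φR φC)
    (hg : Tendsto (fun i => logGenus (F i)) atTop atTop) (hRH : ∀ i, RHFor (F i)) :
    Tendsto (fun i => Real.log (dedekindZeta_residue (F i)) / logGenus (F i)) atTop
      (𝓝 (∑' q, φ q * lossTerm q)) := by
  refine Metric.tendsto_nhds.2 fun ε hε => ?_
  filter_upwards [eventually_log_residue_le h hg (half_pos hε),
    eventually_log_residue_ge h hg hRH (half_pos hε), hg.eventually_gt_atTop 0] with i h1 h2 hg0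
  rw [← le_div_iff₀ hg0] at h2
  rw [← div_le_iff₀ hg0] at h1
  rw [Real.dist_eq, abs_lt]
  constructor <;> linarith

/-- `log w / g → 0`. -/
theorem tendsto_log_torsion {ι : Type*} {l : Filter ι} (G : ι → Type u) [∀ i, Field (G i)]
    [∀ i, NumberField (G i)] (hg : Tendsto (fun i => logGenus (G i)) l atTop) :
    Tendsto (fun i => Real.log (Units.torsionOrder (G i)) / logGenus (G i)) l (𝓝 0) := by
  refine Metric.tendsto_nhds.2 fun ε hε => ?_
  obtain ⟨C, -, hC⟩ := exists_log_torsion_le.{u} (show 0 < ε / 3 by linarith)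
  filter_upwards [hg.eventually_ge_atTop (3 * C / ε), hg.eventually_gt_atTop 0] with i hi hg0
  rw [div_le_iff₀ hε] at hi
  have h1 : 0 ≤ Real.log (Units.torsionOrder (G i)) :=
    Real.log_nonneg (Nat.one_le_cast.2 (Units.torsionOrder_pos (G i)))
  rw [Real.dist_eq, sub_zero, abs_of_nonneg (div_nonneg h1 hg0.le), div_lt_iff₀ hg0]
  linarith [hC (G i), mul_pos hε hg0]

/-- **`log (h R) / g` converges.** -/
theorem tendsto_log_hR (h : RatiosTend F φ φR φC)
    (hg : Tendsto (fun i => logGenus (F i)) atTop atTop) (hRH : ∀ i, RHFor (F i)) :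
    Tendsto (fun i => Real.log ((classNumber (F i) : ℝ) * Units.regulator (F i)) /
        logGenus (F i)) atTop
      (𝓝 (1 + ∑' q, φ q * lossTerm q - (φR * Real.log 2 + φC * Real.log (2 * π)))) := by
  have e : ∀ᶠ i in atTop, 1 + Real.log (dedekindZeta_residue (F i)) / logGenus (F i) +
      Real.log (Units.torsionOrder (F i)) / logGenus (F i) -
      ((nrRealPlaces (F i) : ℝ) / logGenus (F i) * Real.log 2 +
        (nrComplexPlaces (F i) : ℝ) / logGenus (F i) * Real.log (2 * π)) =
      Real.log ((classNumber (F i) : ℝ) * Units.regulator (F i)) / logGenus (F i) := by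
    filter_upwards [hg.eventually_gt_atTop 0] with i hg0
    rw [log_hR_eq]
    field_simp
    ring
  refine Tendsto.congr' e ?_
  have := (((tendsto_log_residue h hg hRH).const_add 1).add (tendsto_log_torsion F hg)).sub
    ((h.real.mul_const (Real.log 2)).add (h.complex.mul_const (Real.log (2 * π))))
  rwa [add_zero] at this

/-- **With `n / g → 0` the limit is `1`, with no Galois hypothesis.** -/
theorem tendsto_log_hR_one {ι : Type*} {l : Filter ι} (G : ι → Type u) [∀ i, Field (G i)]
    [∀ i, NumberField (G i)] (hg : Tendsto (fun i => logGenus (G i)) l atTop)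
    (hn : Tendsto (fun i => (finrank ℚ (G i) : ℝ) / logGenus (G i)) l (𝓝 0))
    (hRH : ∀ i, RHFor (G i)) :
    Tendsto (fun i => Real.log ((classNumber (G i) : ℝ) * Units.regulator (G i)) /
        logGenus (G i)) l (𝓝 1) := by
  refine Metric.tendsto_nhds.2 fun ε hε => ?_
  obtain ⟨C, -, hC⟩ := exists_log_residue_ge.{u} 0 (show 0 < ε / 4 by linarith)
  obtain ⟨L, hL⟩ : ∃ L, L = Real.log 2 + Real.log (2 * π) := ⟨_, rfl⟩
  have hl2 : 0 ≤ Real.log 2 := Real.log_nonneg one_le_two
  have hlp : 0 ≤ Real.log (2 * π) := Real.log_nonneg (by linarith [Real.pi_gt_three])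
  filter_upwards [eventually_log_hR_le_one G hg hn (half_pos hε),
    hn.eventually (eventually_le_nhds (show 0 < ε / (4 * (L + 1)) from
      div_pos hε (by linarith))),
    hg.eventually_ge_atTop (4 * C / ε), hg.eventually_gt_atTop 0] with i h1 h2 h3 hg0
  have a := hC (G i) (hRH i)
  rw [show Finset.Icc 2 0 = (∅ : Finset ℕ) from rfl, Finset.sum_empty] at a
  rw [div_le_iff₀ hε] at h3
  rw [div_le_div_iff₀ hg0 (by linarith)] at h2
  have hw : 0 ≤ Real.log (Units.torsionOrder (G i)) :=
    Real.log_nonneg (Nat.one_le_cast.2 (Units.torsionOrder_pos (G i)))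
  have hn0 := degree_split (G i)
  have r0 : (0 : ℝ) ≤ nrRealPlaces (G i) := Nat.cast_nonneg _
  have c0 : (0 : ℝ) ≤ nrComplexPlaces (G i) := Nat.cast_nonneg _
  have b : (nrRealPlaces (G i) : ℝ) * Real.log 2 + nrComplexPlaces (G i) * Real.log (2 * π) ≤
      L * finrank ℚ (G i) := by
    rw [← hn0, hL]
    nlinarith [mul_nonneg r0 hlp, mul_nonneg c0 hl2, mul_nonneg c0 hlp]
  rw [Real.dist_eq, abs_lt]
  rw [log_hR_eq] at h1 ⊢
  have c1 := (div_le_iff₀ hg0).2 h1
  refine ⟨?_, by linarith⟩
  rw [lt_sub_iff_add_lt, lt_div_iff₀ hg0]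
  nlinarith [Nat.cast_nonneg (α := ℝ) (finrank ℚ (G i))]

end FA.GeneralBrauerSiegelGRH

end
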