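import Fermat.Agent.GeneralBrauerSiegel.Asymptotic

/-!
# The residue from below on the Riemann hypothesis

On the Riemann hypothesis `re ξ'/ξ` on `[1, 2]` is at most three times its value at `2`, which is
`≤ g + 2 + O (n)`. So `log κ ≥ log ζ_K σ - O ((σ - 1) (g + 1)) - C (σ)` for `1 < σ ≤ 2`, and the
Euler factors of norm `≤ Q` give `log κ ≥ ∑_{q ≤ Q} N_q log (q / (q - 1)) - ε g - C`.
-/

set_option autoImplicit false
set_option linter.style.haveILetI false

noncomputable section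

universe u

open NumberField InfinitePlace Module Filter Topology Set IsDedekindDomain Ideal
open FA.HeckeBS FA.StarkOdlyzko FA.TsfasmanVladut FA.GeneralBrauerSiegel
open FA.DedekindZeroCount FA.DedekindHadamard
open scoped Real Classical

namespace FA.GeneralBrauerSiegelGRH

variable (K : Type u) [Field K] [NumberField K]

/-- The share of the infinite places at `2`. -/
def archBound : ℝ := |realRate 2| + |complexRate 2|

/-- **`re ξ'/ξ` at `2`.** -/
theorem re_xiLog_two_le :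
    (xiLog K ((2 : ℝ) : ℂ)).re ≤ logGenus K + 2 + archBound * finrank ℚ K := by
  have hs : 1 < ((2 : ℝ) : ℂ).re := by simp
  have h := (stark_identity K hs).unique (hasSum_reTerm K (xi_ne_zero_right K hs.le))
  rw [← h]
  have hp := (sum_places_le K (show (1 : ℝ) < 2 by norm_num) ∅)
  rw [Finset.sum_empty] at hp
  have e1 : (((2 : ℝ) : ℂ)⁻¹).re ≤ 1 := by
    rw [← Complex.ofReal_inv, Complex.ofReal_re]
    norm_num
  have e2 : ((((2 : ℝ) : ℂ) - 1)⁻¹).re ≤ 1 := by norm_num
  have e3 : (archTerm K ((2 : ℝ) : ℂ)).re ≤ archBound * finrank ℚ K := by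
    have e : (archTerm K ((2 : ℝ) : ℂ)).re =
        -(nrRealPlaces K * realRate 2 + nrComplexPlaces K * complexRate 2) := by
      rw [archTerm, Complex.add_re, ← Complex.ofReal_natCast, Complex.re_ofReal_mul,
        ← Complex.ofReal_natCast, Complex.re_ofReal_mul, Complex.div_ofNat_re, Complex.sub_re,
        Complex.sub_re, Complex.ofReal_re, Complex.ofReal_re, realRate, complexRate]
      ring
    have hn := degree_split K
    have h0 : (0 : ℝ) ≤ nrRealPlaces K := Nat.cast_nonneg _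
    have h1 : (0 : ℝ) ≤ nrComplexPlaces K := Nat.cast_nonneg _
    rw [e, archBound, ← hn, add_mul]
    nlinarith [mul_le_mul_of_nonneg_left (neg_le_abs (realRate 2)) h0,
      mul_le_mul_of_nonneg_left (neg_le_abs (complexRate 2)) h1,
      mul_nonneg (abs_nonneg (realRate 2)) h1, mul_nonneg (abs_nonneg (complexRate 2)) h0,
      mul_nonneg (abs_nonneg (complexRate 2)) h1]
  have hD : logGenus K = discLog K / 2 := rfl
  rw [hD]
  linarith

/-- **On the Riemann hypothesis `re ξ'/ξ` on `[1, 2]` is at most three times its value at `2`.** -/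
theorem re_xiLog_le_three (hRH : RHFor K) {x : ℝ} (h1 : 1 ≤ x) (h2 : x ≤ 2) :
    (xiLog K (x : ℂ)).re ≤ 3 * (xiLog K ((2 : ℝ) : ℂ)).re := by
  have hx := hasSum_reTerm K (xi_ne_zero_right K (s := (x : ℂ)) (by simpa using h1))
  have h2' := (hasSum_reTerm K (xi_ne_zero_right K (s := ((2 : ℝ) : ℂ)) (by simp))).mul_left 3
  refine hasSum_le (fun ρ => ?_) hx h2'
  rcases eq_or_ne (xiMult K ρ) 0 with hm | hm
  · simp [reTerm, hm]
  have hρ := re_eq_half_of_rh K hRH ((xiMult_ne_zero_iff K).1 hm)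
  simp only [reTerm]
  rw [mul_left_comm]
  refine mul_le_mul_of_nonneg_left ?_ (Nat.cast_nonneg _)
  rw [Complex.inv_re, Complex.inv_re, Complex.normSq_apply, Complex.normSq_apply]
  simp only [Complex.sub_re, Complex.sub_im, Complex.ofReal_re, Complex.ofReal_im, hρ]
  obtain ⟨γ, hγ⟩ : ∃ γ, γ = (0 - ρ.im) * (0 - ρ.im) := ⟨_, rfl⟩
  have hγ0 : 0 ≤ γ := hγ ▸ mul_self_nonneg _
  rw [← hγ, mul_div_assoc', div_le_div_iff₀ (by nlinarith) (by nlinarith)]
  nlinarith [mul_nonneg hγ0 (show 0 ≤ 5 - x by linarith),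
    mul_nonneg (show 0 ≤ x - 1 / 2 by linarith) (show 0 ≤ 2 * x - 3 / 2 by linarith)]

theorem xiR_pos_right {x : ℝ} (hx : 1 ≤ x) : 0 < xiR K x :=
  lt_of_lt_of_le (by simpa [xiR] using polarR_pos K : 0 < xiR K 1) (xiR_mono le_rfl hx)

theorem hasDerivAt_log_xiR {x : ℝ} (hx : 1 ≤ x) :
    HasDerivAt (fun y => Real.log (xiR K y)) (xiLog K (x : ℂ)).re x := by
  have h := ((differentiable_xiFun K (x : ℂ)).hasDerivAt.comp_ofReal)
  have h2 := Complex.reCLM.hasFDerivAt.comp_hasDerivAt x h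
  have e : (Complex.reCLM ∘ fun y : ℝ => xiFun K (y : ℂ)) = xiR K := funext fun y => by
    simp [xiFun_ofReal]
  rw [e] at h2
  refine (h2.log (xiR_pos_right K hx).ne').congr_deriv ?_
  rw [xiLog, xiFun_ofReal, Complex.div_ofReal_re]
  simp

/-- **`κ` against `ζ_K σ` from below.** -/
theorem log_residue_ge (hRH : RHFor K) {σ : ℝ} (hσ : 1 < σ) (hσ2 : σ ≤ 2) :
    Real.log (zetaR K σ) + Real.log σ + Real.log (σ - 1) +
        (nrRealPlaces K * (logR σ - logR 1) + nrComplexPlaces K * (logC σ - logC 1)) -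
        3 * (σ - 1) * (logGenus K + 2 + archBound * finrank ℚ K) ≤
      Real.log (dedekindZeta_residue K) := by
  have hmvt : Real.log (xiR K σ) - Real.log (xiR K 1) ≤
      3 * (logGenus K + 2 + archBound * finrank ℚ K) * (σ - 1) := by
    refine (convex_Icc (1 : ℝ) σ).image_sub_le_mul_sub_of_deriv_le
      (fun y hy => (hasDerivAt_log_xiR K hy.1).continuousAt.continuousWithinAt)
      (fun y hy => ((hasDerivAt_log_xiR K (interior_subset hy).1
        ).differentiableAt).differentiableWithinAt) (fun y hy => ?_)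
      1 (left_mem_Icc.2 hσ.le) σ (right_mem_Icc.2 hσ.le) hσ.le
    rw [(hasDerivAt_log_xiR K (interior_subset hy).1).deriv]
    exact (re_xiLog_le_three K hRH (interior_subset hy).1 ((interior_subset hy).2.trans hσ2)).trans
      (mul_le_mul_of_nonneg_left (re_xiLog_two_le K) (by norm_num))
  have hC1 : logC 1 = -Real.log π := by
    rw [logC, Real.Gamma_one, Real.log_one, Real.log_mul two_ne_zero Real.pi_ne_zero]
    ring
  have hR1 : logR 1 = 0 := by
    rw [logR, Real.Gamma_one_half_eq, Real.log_sqrt Real.pi_pos.le]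
    ring
  have hg : 0 ≤ (σ - 1) * logGenus K := mul_nonneg (by linarith) (logGenus_nonneg K)
  rw [show xiR K 1 = polarR K by rw [xiR]; simp, xiR_eq K hσ,
    Real.log_mul (polyGam_pos K hσ).ne' (zetaR_pos K hσ).ne', log_polyGam K hσ] at hmvt
  have eg : Real.log (((discr K).natAbs : ℕ) : ℝ) = 2 * logGenus K := by rw [logGenus]; ring
  rw [eg] at hmvt
  rw [log_residue_eq, hR1, hC1]
  linarith

/-- `-log (1 - q ^ (-σ))`. -/
def lossAt (σ : ℝ) (q : ℕ) : ℝ := -Real.log (1 - (q : ℝ) ^ (-σ))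

theorem lossAt_one {q : ℕ} (hq : 2 ≤ q) : lossAt 1 q = lossTerm q := by
  have h : (2 : ℝ) ≤ q := by exact_mod_cast hq
  rw [lossAt, lossTerm, Real.rpow_neg_one, ← Real.log_inv]
  congr 1
  have : (q : ℝ) - 1 ≠ 0 := by linarith
  field_simp

/-- **`log ζ_K σ` from below.** -/
theorem log_zetaR_ge {σ : ℝ} (hσ : 1 < σ) (Q : ℕ) :
    ∑ q ∈ Finset.Icc 2 Q, (placeCount K q : ℝ) * lossAt σ q ≤ Real.log (zetaR K σ) := by
  obtain ⟨T₀, hT₀⟩ : ∃ T₀, T₀ = (Finset.Icc 2 Q).biUnion fun q =>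
      (finite_places_norm K q).toFinset := ⟨_, rfl⟩
  obtain ⟨c, hc⟩ : ∃ c : HeightOneSpectrum (𝓞 K) → ℝ,
      c = fun v => (1 - ((absNorm v.asIdeal : ℕ) : ℝ) ^ (-σ))⁻¹ := ⟨_, rfl⟩
  have hq : ∀ v : HeightOneSpectrum (𝓞 K), 2 ≤ absNorm v.asIdeal := fun v =>
    NumberField.HeightOneSpectrum.one_lt_absNorm v
  have hc1 : ∀ v, 1 ≤ c v := fun v => by
    rw [hc]
    exact (one_le_inv₀ (factor_le hσ.le (hq v)).1).2
      (sub_le_self 1 (Real.rpow_nonneg (Nat.cast_nonneg _) _))
  have hlim : Tendsto (fun T : Finset (HeightOneSpectrum (𝓞 K)) => ∏ v ∈ T, c v) atTop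
      (𝓝 (zetaR K σ)) := by
    have h := (FA.AbelianZeta.hasProd_primes (F := K) (s := (σ : ℂ)) (by simpa using hσ)).norm
    rw [dedekindZeta_ofReal K hσ, Complex.norm_real,
      Real.norm_of_nonneg (zetaR_pos K hσ).le] at h
    refine Tendsto.congr (fun T => Finset.prod_congr rfl fun v _ => ?_) h
    dsimp only
    rw [← Complex.ofReal_natCast, ← Complex.ofReal_neg, ← Complex.ofReal_cpow (Nat.cast_nonneg _),
      ← Complex.ofReal_one, ← Complex.ofReal_sub, ← Complex.ofReal_inv, Complex.norm_real,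
      Real.norm_of_nonneg (inv_nonneg.2 (factor_le hσ.le (hq v)).1.le), hc]
  have hle : ∏ v ∈ T₀, c v ≤ zetaR K σ := by
    refine ge_of_tendsto hlim ((eventually_ge_atTop T₀).mono fun T hT => ?_)
    rw [← Finset.prod_sdiff hT]
    exact le_mul_of_one_le_left (Finset.prod_nonneg fun v _ => zero_le_one.trans (hc1 v))
      (Finset.one_le_prod fun v _ => hc1 v)
  have hpos : 0 < ∏ v ∈ T₀, c v := Finset.prod_pos fun v _ => one_pos.trans_le (hc1 v)
  refine le_trans (le_of_eq ?_) (Real.log_le_log hpos hle)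
  rw [Real.log_prod (fun v _ => (one_pos.trans_le (hc1 v)).ne'), hT₀, Finset.sum_biUnion]
  · refine Finset.sum_congr rfl fun q _ => ?_
    rw [placeCount, Set.ncard_eq_toFinset_card _ (finite_places_norm K q),
      Finset.sum_eq_card_nsmul (b := lossAt σ q) fun v hv => ?_, nsmul_eq_mul]
    rw [hc, lossAt, Real.log_inv, (Set.Finite.mem_toFinset _).1 hv]
  · intro a _ b _ hab
    refine Finset.disjoint_left.2 fun v ha hb => hab ?_
    have h1 : absNorm v.asIdeal = a := by simpa using ha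
    have h2 : absNorm v.asIdeal = b := by simpa using hb
    exact h1.symm.trans h2

/-- **The uniform lower bound.** -/
theorem exists_log_residue_ge (Q : ℕ) {ε : ℝ} (hε : 0 < ε) : ∃ C : ℝ, 0 ≤ C ∧
    ∀ (K : Type u) [Field K] [NumberField K], RHFor K →
      (∑ q ∈ Finset.Icc 2 Q, (placeCount K q : ℝ) * lossTerm q) - ε * logGenus K - C ≤
        Real.log (dedekindZeta_residue K) := by
  obtain ⟨A, hA, hdeg⟩ := exists_degree_le.{u}
  have hab : 0 ≤ archBound := add_nonneg (abs_nonneg _) (abs_nonneg _)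
  obtain ⟨η, hη⟩ : ∃ η, η = ε / (2 * A * ((Q : ℝ) + 2)) := ⟨_, rfl⟩
  have hη0 : 0 < η := hη ▸ by positivity
  obtain ⟨δ, hδ⟩ : ∃ δ, δ = ε / (6 * (1 + archBound * A)) := ⟨_, rfl⟩
  have hδ0 : 0 < δ := hδ ▸ by positivity
  have hR := (hasDerivAt_logR_one.continuousAt.tendsto.mono_left
    (nhdsWithin_le_nhds (s := Ioi (1 : ℝ)))).eventually
      (eventually_gt_nhds (sub_lt_self (logR 1) hη0))
  have hC := (hasDerivAt_logC_one.continuousAt.tendsto.mono_left
    (nhdsWithin_le_nhds (s := Ioi (1 : ℝ)))).eventually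
      (eventually_gt_nhds (sub_lt_self (logC 1) hη0))
  have hL : ∀ q ∈ Finset.Icc 2 Q, ∀ᶠ σ in 𝓝[>] (1 : ℝ), lossTerm q - η < lossAt σ q :=
    fun q hq => by
    have hq2 := (Finset.mem_Icc.1 hq).1
    have hq0 : (q : ℝ) ≠ 0 := Nat.cast_ne_zero.2 (by omega)
    have hc : ContinuousAt (fun σ => lossAt σ q) 1 :=
      ((continuousAt_const.sub ((Real.continuousAt_const_rpow hq0).comp' continuousAt_neg)).log
        (factor_le le_rfl hq2).1.ne').neg
    refine (hc.tendsto.mono_left nhdsWithin_le_nhds).eventually (eventually_gt_nhds ?_)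
    rw [lossAt_one hq2]
    linarith
  obtain ⟨σ, hσ, hσ', hσR, hσC, hσL⟩ := (eventually_mem_nhdsWithin.and
    ((((eventually_lt_nhds (show (1 : ℝ) < 1 + min 1 δ by
      linarith [lt_min one_pos hδ0])).filter_mono nhdsWithin_le_nhds)).and
        (hR.and (hC.and ((Finset.Icc 2 Q).eventually_all.2 hL))))).exists
  have hσ1 : σ - 1 ≤ δ := by linarith [min_le_right 1 δ]
  have hσ2 : σ ≤ 2 := by linarith [min_le_left 1 δ]
  refine ⟨|Real.log σ + Real.log (σ - 1)| + 6 * δ + 3 * δ * (archBound * A) +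
    η * ((Q : ℝ) + 2) * A, by positivity, fun K _ _ hRH => ?_⟩
  have h := log_residue_ge K hRH hσ hσ2
  have h2 := log_zetaR_ge K hσ Q
  have hn := hdeg K
  have hn0 : (0 : ℝ) ≤ finrank ℚ K := Nat.cast_nonneg _
  have hg := logGenus_nonneg K
  have a : (∑ q ∈ Finset.Icc 2 Q, (placeCount K q : ℝ) * lossTerm q) - η * Q * finrank ℚ K ≤
      ∑ q ∈ Finset.Icc 2 Q, (placeCount K q : ℝ) * lossAt σ q := by
    have hs : ∑ q ∈ Finset.Icc 2 Q, ((placeCount K q : ℝ) * lossTerm q -
        η * finrank ℚ K) ≤ ∑ q ∈ Finset.Icc 2 Q, (placeCount K q : ℝ) * lossAt σ q := by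
      refine Finset.sum_le_sum fun q hq => ?_
      have c1 := mul_le_mul_of_nonneg_left (hσL q hq).le
        (Nat.cast_nonneg (placeCount K q) : (0 : ℝ) ≤ _)
      have c2 := mul_le_mul_of_nonneg_left ((Nat.cast_le (α := ℝ)).2 (placeCount_le K q)) hη0.le
      linarith
    rw [Finset.sum_sub_distrib, Finset.sum_const, nsmul_eq_mul, Nat.card_Icc] at hs
    have c3 : ((Q + 1 - 2 : ℕ) : ℝ) ≤ Q := Nat.cast_le.2 (by omega)
    linarith [mul_le_mul_of_nonneg_right c3 (mul_nonneg hη0.le hn0)]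
  have r0 : (0 : ℝ) ≤ nrRealPlaces K := Nat.cast_nonneg _
  have c0 : (0 : ℝ) ≤ nrComplexPlaces K := Nat.cast_nonneg _
  have b : -(η * finrank ℚ K) ≤
      nrRealPlaces K * (logR σ - logR 1) + nrComplexPlaces K * (logC σ - logC 1) := by
    rw [← degree_split K]
    nlinarith [mul_le_mul_of_nonneg_left (show -η ≤ logR σ - logR 1 by linarith) r0,
      mul_le_mul_of_nonneg_left (show -η ≤ logC σ - logC 1 by linarith) c0]
  have d1 : 3 * (σ - 1) * (logGenus K + 2 + archBound * finrank ℚ K) ≤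
      3 * δ * (logGenus K + 2 + archBound * (A * (logGenus K + 1))) :=
    mul_le_mul (by linarith) (by linarith [mul_le_mul_of_nonneg_left hn hab]) (by positivity)
      (by positivity)
  have e1 : η * ((Q : ℝ) + 2) * A = ε / 2 := by rw [hη]; field_simp
  have e2 : 3 * δ * (1 + archBound * A) = ε / 2 := by
    have : 1 + archBound * A ≠ 0 := by positivity
    rw [hδ]; field_simp; ring
  have d2 : η * ((Q : ℝ) + 1) * finrank ℚ K ≤ η * ((Q : ℝ) + 2) * A * (logGenus K + 1) := by
    rw [mul_assoc _ A]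
    exact mul_le_mul (mul_le_mul_of_nonneg_left (by linarith) hη0.le) hn hn0 (by positivity)
  have e1' := congrArg (· * logGenus K) e1
  have e2' := congrArg (· * logGenus K) e2
  linarith [neg_abs_le (Real.log σ + Real.log (σ - 1))]

end FA.GeneralBrauerSiegelGRH

end
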